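/-
ALPHA-P3 (helper3): Khuri-Makdisi / Castelnuovo lemmas over an algebraically closed field, from the
Riemann–Roch theorem of `Fermat.Agent.CurveP`.  Part 1: base-point-freeness.

* `alpk_ell_sub`        : `ℓ(A - D) = ℓ(A) - deg D` for `D ≥ 0`, `deg A ≥ 2g - 1 + deg D`;
* `alpk_exists_exact`   : `deg A ≥ 2g` ⇒ `L(A)` has no base point: `∃ s ∈ L(A), ord_v s = -A(v)`;
* `alpk_exists_pencil`  : `deg A ≥ 2g` ⇒ `L(A)` contains a base-point-free pencil;
* `alpk_colon`          : `deg B ≥ 2g`, `s ∈ L(A)`: `s · L(B) ⊆ L(A + B - D) ↔ s ∈ L(A - D)`.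
-/
import Mathlib
import Fermat.Agent.Lib.CurveP.RiemannRoch

set_option autoImplicit false
set_option linter.unusedSectionVars false

namespace Fermat.Agent.Alpha

open Fermat.Agent.Curve Fermat.Agent.CurveP AlgebraicCurve PlaceAux RRAux

variable {K F : Type*} [Field K] [Field F] [Algebra K F] [IsAlgClosed K]
  {x : F} (hx : IsFunctionFieldGen K F x)
  [Algebra.IsSeparable (IntermediateField.adjoin K {x}) F]

include hx

/-- the degree of a point is one. -/
theorem alpk_degree_single (v : Place K F) (n : ℤ) :
    Divisor.degree (Finsupp.single v n : Divisor K F) = n := by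
  rw [Divisor.degree_single, deg_eq_one hx v, Nat.cast_one, mul_one]

theorem alpk_degree_sub_single (A : Divisor K F) (v : Place K F) :
    Divisor.degree (A - Finsupp.single v 1) = Divisor.degree A - 1 := by
  rw [map_sub, alpk_degree_single hx]

/-- `ℓ(A) = deg A + 1 - g` for `deg A ≥ 2g - 1`. -/
theorem alpk_ell_eq {A : Divisor K F} (hA : 2 * (genusR K F : ℤ) - 1 ≤ Divisor.degree A) :
    (ell A : ℤ) = Divisor.degree A + 1 - genusR K F :=
  ell_eq_of_degree_gt hx (by omega)

/-- imposing an effective divisor `D` costs exactly `deg D` conditions. -/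
theorem alpk_ell_sub {A D : Divisor K F} (hD : 0 ≤ D)
    (hA : 2 * (genusR K F : ℤ) - 1 + Divisor.degree D ≤ Divisor.degree A) :
    (ell (A - D) : ℤ) = ell A - Divisor.degree D := by
  have hd := degree_nonneg_of_nonneg hD
  rw [alpk_ell_eq hx (A := A - D) (by rw [map_sub]; omega), alpk_ell_eq hx (A := A) (by omega),
    map_sub]
  ring

theorem alpk_ell_sub_single {A : Divisor K F} (v : Place K F)
    (hA : 2 * (genusR K F : ℤ) ≤ Divisor.degree A) :
    (ell (A - Finsupp.single v 1) : ℤ) = ell A - 1 := by
  have h := alpk_ell_sub hx (A := A) (D := Finsupp.single v 1)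
    (by
      intro w
      rw [Finsupp.zero_apply]
      by_cases hw : w = v
      · subst hw; rw [Finsupp.single_eq_same]; norm_num
      · rw [Finsupp.single_eq_of_ne hw])
    (by rw [alpk_degree_single hx]; omega)
  rw [h, alpk_degree_single hx]

/-- `L(A - v) ≤ L(A)`. -/
theorem alpk_space_sub_single_le (A : Divisor K F) (v : Place K F) :
    riemannRochSpace (A - Finsupp.single v 1) ≤ riemannRochSpace A := by
  apply riemannRochSpace_mono
  intro w
  rw [Finsupp.sub_apply]
  by_cases hw : w = v
  · subst hw; rw [Finsupp.single_eq_same]; omega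
  · rw [Finsupp.single_eq_of_ne hw]; omega

/-- membership in `L(A - v)` for an element of `L(A)`. -/
theorem alpk_mem_sub_single_iff {A : Divisor K F} (v : Place K F) {s : F}
    (hs : s ∈ riemannRochSpace A) :
    s ∈ riemannRochSpace (A - Finsupp.single v 1) ↔ s = 0 ∨ -A v + 1 ≤ v.ord s := by
  rw [mem_riemannRochSpace_iff]
  constructor
  · intro h
    rcases h v with h0 | h0
    · exact Or.inl h0
    · right
      rw [Finsupp.sub_apply, Finsupp.single_eq_same] at h0
      omega
  · intro h w
    rcases h with h | h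
    · exact Or.inl h
    · by_cases hw : w = v
      · subst hw
        right
        rw [Finsupp.sub_apply, Finsupp.single_eq_same]
        omega
      · rcases (mem_riemannRochSpace_iff.mp hs) w with h0 | h0
        · exact Or.inl h0
        · right
          rw [Finsupp.sub_apply, Finsupp.single_eq_of_ne hw]
          omega

/-- `L(A - v) ≠ L(A)` for `deg A ≥ 2g`. -/
theorem alpk_space_sub_single_ne {A : Divisor K F} (v : Place K F)
    (hA : 2 * (genusR K F : ℤ) ≤ Divisor.degree A) :
    riemannRochSpace (A - Finsupp.single v 1) ≠ riemannRochSpace A := by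
  intro h
  have h1 := alpk_ell_sub_single hx v hA
  rw [ell, h] at h1
  change (ell A : ℤ) = ell A - 1 at h1
  omega

/-- **base-point-freeness**: for `deg A ≥ 2g` and every place `v` some `s ∈ L(A)` has exact
order `-A(v)` at `v`. -/
theorem alpk_exists_exact {A : Divisor K F} (hA : 2 * (genusR K F : ℤ) ≤ Divisor.degree A)
    (v : Place K F) : ∃ s ∈ riemannRochSpace A, s ≠ 0 ∧ v.ord s = -A v := by
  have hne := alpk_space_sub_single_ne hx v hA
  have hle := alpk_space_sub_single_le hx A v
  obtain ⟨s, hs, hs'⟩ := SetLike.exists_of_lt (lt_of_le_of_ne hle hne)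
  rw [alpk_mem_sub_single_iff hx v hs] at hs'
  push Not at hs'
  obtain ⟨hs0, hlt⟩ := hs'
  refine ⟨s, hs, hs0, ?_⟩
  rcases (mem_riemannRochSpace_iff.mp hs) v with h0 | h0
  · exact absurd h0 hs0
  · omega

end Fermat.Agent.Alpha
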