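/-
ALPHA-P3 (helper3), part 2: the colon lemma, base-point-free pencils, the pencil trick
(Castelnuovo) and the product theorem `L(A) · L(B) = L(A + B)`.
-/
import Mathlib
import Fermat.Agent.Lib.Alpha.KM.Basic

set_option autoImplicit false
set_option linter.unusedSectionVars false

namespace Fermat.Agent.Alpha

open Fermat.Agent.Curve Fermat.Agent.CurveP AlgebraicCurve PlaceAux RRAux

variable {K F : Type*} [Field K] [Field F] [Algebra K F] [IsAlgClosed K]
  {x : F} (hx : IsFunctionFieldGen K F x)
  [Algebra.IsSeparable (IntermediateField.adjoin K {x}) F]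

include hx

/-- **colon lemma**: if `L(B)` is base point free (`deg B ≥ 2g`), then `s · L(B) ⊆ L(C)` iff
`s ∈ L(C - B)`. -/
theorem alpk_colon {B C : Divisor K F} (hB : 2 * (genusR K F : ℤ) ≤ Divisor.degree B) (s : F) :
    (∀ t ∈ riemannRochSpace B, s * t ∈ riemannRochSpace C) ↔ s ∈ riemannRochSpace (C - B) := by
  constructor
  · intro h
    rw [mem_riemannRochSpace_iff]
    intro v
    by_cases hs : s = 0
    · exact Or.inl hs
    right
    obtain ⟨t, ht, ht0, hord⟩ := alpk_exists_exact hx hB v
    rcases (mem_riemannRochSpace_iff.mp (h t ht)) v with h0 | h0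
    · exact absurd h0 (mul_ne_zero hs ht0)
    · rw [v.ord_mul hs ht0, hord] at h0
      rw [Finsupp.sub_apply]
      omega
  · intro h t ht
    have := mul_mem_riemannRochSpace h ht
    rwa [sub_add_cancel] at this

/-- the colon lemma in the shape used for Khuri-Makdisi's "flip": `s ∈ L(A)`, `D` any divisor. -/
theorem alpk_colon' {A B D : Divisor K F} (hB : 2 * (genusR K F : ℤ) ≤ Divisor.degree B) (s : F) :
    (∀ t ∈ riemannRochSpace B, s * t ∈ riemannRochSpace (A + B - D)) ↔
      s ∈ riemannRochSpace (A - D) := by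
  rw [alpk_colon hx hB]
  have : A + B - D - B = A - D := by abel
  rw [this]

/-- the set of places where `s ∈ L(A)` does not have exact order `-A(v)` is finite. -/
theorem alpk_finite_inexact (A : Divisor K F) (s : F) :
    {v : Place K F | v.ord s ≠ -A v}.Finite := by
  have h1 := finite_poles_of hx s
  have h2 := finite_zeros_of hx s
  have h3 : (A.support : Set (Place K F)).Finite := A.support.finite_toSet
  refine ((h1.union h2).union h3).subset ?_
  intro v hv
  simp only [Set.mem_ofPred_eq] at hv
  by_cases hA : A v = 0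
  · left
    rw [hA, neg_zero] at hv
    rcases lt_or_gt_of_ne hv with h | h
    · exact Or.inl h
    · exact Or.inr h
  · right
    exact Finset.mem_coe.mpr (Finsupp.mem_support_iff.mpr hA)

/-- **a base-point-free pencil** in `L(A)`, `deg A ≥ 2g`. -/
theorem alpk_exists_pencil {A : Divisor K F} (hA : 2 * (genusR K F : ℤ) ≤ Divisor.degree A) :
    ∃ s ∈ riemannRochSpace A, ∃ t ∈ riemannRochSpace A, s ≠ 0 ∧
      ∀ v : Place K F, v.ord s = -A v ∨ (t ≠ 0 ∧ v.ord t = -A v) := by
  obtain ⟨v0⟩ := exists_place hx
  obtain ⟨s, hs, hs0, -⟩ := alpk_exists_exact hx hA v0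
  have hfin := alpk_finite_inexact hx A s
  have : Finite {v : Place K F | v.ord s ≠ -A v} := hfin.to_subtype
  have : FiniteDimensional K ↥(riemannRochSpace A) := finiteDimensional_riemannRochSpace hx A
  let p : {v : Place K F | v.ord s ≠ -A v} → Submodule K ↥(riemannRochSpace A) := fun v =>
    (riemannRochSpace (A - Finsupp.single v.1 1)).submoduleOf (riemannRochSpace A)
  have hp : ∀ v, p v ≠ ⊤ := by
    intro v htop
    obtain ⟨u, hu, hu0, hord⟩ := alpk_exists_exact hx hA v.1
    have hmem : (⟨u, hu⟩ : ↥(riemannRochSpace A)) ∈ p v := by rw [htop]; exact Submodule.mem_top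
    have hmem' : u ∈ riemannRochSpace (A - Finsupp.single v.1 1) := hmem
    rw [alpk_mem_sub_single_iff hx v.1 hu] at hmem'
    rcases hmem' with h | h
    · exact hu0 h
    · omega
  obtain ⟨t, ht⟩ := Submodule.exists_forall_notMem_of_forall_ne_top p hp
  refine ⟨s, hs, t.1, t.2, hs0, ?_⟩
  intro v
  by_cases hv : v.ord s = -A v
  · exact Or.inl hv
  · right
    have h1 : (t : F) ∉ riemannRochSpace (A - Finsupp.single v 1) := ht ⟨v, hv⟩
    rw [alpk_mem_sub_single_iff hx v t.2] at h1
    push Not at h1
    obtain ⟨ht0, hlt⟩ := h1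
    refine ⟨ht0, ?_⟩
    rcases (mem_riemannRochSpace_iff.mp t.2) v with h0 | h0
    · exact absurd h0 ht0
    · omega

end Fermat.Agent.Alpha
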