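/-
ALPHA-P3 (helper3), part 3: the pencil trick (Castelnuovo) and the product theorem
`L(A) * L(B) = L(A + B)` for `deg A ≥ 4g`, `deg B ≥ 2g`.
-/
import Mathlib
import Fermat.Agent.Lib.Alpha.KM.Pencil

set_option autoImplicit false
set_option linter.unusedSectionVars false

namespace Fermat.Agent.Alpha

open Fermat.Agent.Curve Fermat.Agent.CurveP AlgebraicCurve PlaceAux RRAux

variable {K F : Type*} [Field K] [Field F] [Algebra K F] [IsAlgClosed K]
  {x : F} (hx : IsFunctionFieldGen K F x)
  [Algebra.IsSeparable (IntermediateField.adjoin K {x}) F]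

omit [IsAlgClosed K] in
theorem alpk_mul_mem_of_sub {A B : Divisor K F} {u t : F} (hu : u ∈ riemannRochSpace (A - B))
    (ht : t ∈ riemannRochSpace B) : u * t ∈ riemannRochSpace A := by
  have := mul_mem_riemannRochSpace hu ht
  rwa [sub_add_cancel] at this

/-- the map `(a, b) ↦ a s + b t`, `L(A)² → L(A + B)` for `s, t ∈ L(B)`. -/
noncomputable def alpkPencilMap (A B : Divisor K F) {s t : F} (hs : s ∈ riemannRochSpace B)
    (ht : t ∈ riemannRochSpace B) :
    (↥(riemannRochSpace A) × ↥(riemannRochSpace A)) →ₗ[K] ↥(riemannRochSpace (A + B)) where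
  toFun p := ⟨p.1.1 * s + p.2.1 * t,
    add_mem (mul_mem_riemannRochSpace p.1.2 hs) (mul_mem_riemannRochSpace p.2.2 ht)⟩
  map_add' p q := by
    apply Subtype.ext
    simp only [Prod.fst_add, Prod.snd_add, Submodule.coe_add]
    ring
  map_smul' c p := by
    apply Subtype.ext
    simp only [Prod.smul_fst, Prod.smul_snd, Submodule.coe_smul, RingHom.id_apply, smul_add,
      smul_mul_assoc]

/-- the map `u ↦ (u t, - u s)`, `L(A - B) → L(A)²`. -/
noncomputable def alpkPencilKer (A B : Divisor K F) {s t : F} (hs : s ∈ riemannRochSpace B)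
    (ht : t ∈ riemannRochSpace B) :
    ↥(riemannRochSpace (A - B)) →ₗ[K] (↥(riemannRochSpace A) × ↥(riemannRochSpace A)) where
  toFun u := (⟨u.1 * t, alpk_mul_mem_of_sub u.2 ht⟩,
    ⟨-(u.1 * s), neg_mem (alpk_mul_mem_of_sub u.2 hs)⟩)
  map_add' u w := by
    apply Prod.ext
    · apply Subtype.ext
      simp only [Submodule.coe_add, Prod.fst_add]
      ring
    · apply Subtype.ext
      simp only [Submodule.coe_add, Prod.snd_add]
      ring
  map_smul' c u := by
    apply Prod.ext
    · apply Subtype.ext
      simp only [Submodule.coe_smul, RingHom.id_apply, Prod.smul_fst, smul_mul_assoc]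
    · apply Subtype.ext
      simp only [Submodule.coe_smul, RingHom.id_apply, Prod.smul_snd, smul_mul_assoc, smul_neg]

include hx

/-- **the pencil trick**: relations `a s + b t = 0` between a base-point-free pencil `s, t` of
`L(B)` with coefficients in `L(A)` come from `L(A - B)`. -/
theorem alpk_pencil_ker {A B : Divisor K F} {s t : F} (hs0 : s ≠ 0)
    (hst : ∀ v : Place K F, v.ord s = -B v ∨ (t ≠ 0 ∧ v.ord t = -B v))
    {a b : F} (ha : a ∈ riemannRochSpace A) (hb : b ∈ riemannRochSpace A)
    (h : a * s + b * t = 0) :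
    ∃ u ∈ riemannRochSpace (A - B), a = u * t ∧ b = -(u * s) := by
  refine ⟨-(b / s), ?_, ?_, ?_⟩
  · rw [mem_riemannRochSpace_iff]
    intro v
    by_cases hb0 : b = 0
    · left; rw [hb0, zero_div, neg_zero]
    right
    have hu0 : -(b / s) ≠ 0 := neg_ne_zero.mpr (div_ne_zero hb0 hs0)
    rw [Finsupp.sub_apply]
    rcases hst v with hv | ⟨ht0, hv⟩
    · have hbv : -A v ≤ v.ord b := by
        rcases (mem_riemannRochSpace_iff.mp hb) v with h0 | h0
        · exact absurd h0 hb0
        · exact h0
      have : v.ord (-(b / s)) = v.ord b - v.ord s := by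
        rw [show -(b / s) = (-1 : F) * (b * s⁻¹) by field_simp,
          v.ord_mul (by norm_num) (mul_ne_zero hb0 (inv_ne_zero hs0)),
          v.ord_mul hb0 (inv_ne_zero hs0), v.ord_inv]
        have h1 : v.ord (-1 : F) = 0 := by
          have := v.ord_mul (f := (-1 : F)) (g := -1) (by norm_num) (by norm_num)
          rw [show (-1 : F) * -1 = 1 by ring, v.ord_one] at this
          omega
        omega
      omega
    · -- `a = u t`
      have hat : a = -(b / s) * t := by
        field_simp
        linear_combination h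
      have ha0 : a ≠ 0 := by rw [hat]; exact mul_ne_zero hu0 ht0
      have hav : -A v ≤ v.ord a := by
        rcases (mem_riemannRochSpace_iff.mp ha) v with h0 | h0
        · exact absurd h0 ha0
        · exact h0
      have : v.ord a = v.ord (-(b / s)) + v.ord t := by
        rw [hat, v.ord_mul hu0 ht0]
      omega
  · field_simp
    linear_combination h
  · field_simp

/-- **Castelnuovo**: if `s, t` is a base-point-free pencil of `L(B)` and `deg (A - B) ≥ 2g - 1`, then
`L(A) s + L(A) t = L(A + B)`. -/
theorem alpk_castelnuovo {A B : Divisor K F} {s t : F} (hs : s ∈ riemannRochSpace B)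
    (ht : t ∈ riemannRochSpace B) (hs0 : s ≠ 0)
    (hst : ∀ v : Place K F, v.ord s = -B v ∨ (t ≠ 0 ∧ v.ord t = -B v))
    (hAB : 2 * (genusR K F : ℤ) - 1 ≤ Divisor.degree A - Divisor.degree B)
    (f : F) (hf : f ∈ riemannRochSpace (A + B)) :
    ∃ a ∈ riemannRochSpace A, ∃ b ∈ riemannRochSpace A, f = a * s + b * t := by
  have hB0 : 0 ≤ Divisor.degree B := by
    by_contra hneg
    push Not at hneg
    have := riemannRochSpace_eq_bot hx hneg
    rw [this, Submodule.mem_bot] at hs
    exact hs0 hs
  have : FiniteDimensional K ↥(riemannRochSpace A) := finiteDimensional_riemannRochSpace hx A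
  have : FiniteDimensional K ↥(riemannRochSpace (A + B)) :=
    finiteDimensional_riemannRochSpace hx (A + B)
  have : FiniteDimensional K ↥(riemannRochSpace (A - B)) :=
    finiteDimensional_riemannRochSpace hx (A - B)
  set φ := alpkPencilMap A B hs ht with hφ
  set ψ := alpkPencilKer A B hs ht with hψ
  have hψinj : Function.Injective ψ := by
    intro u w huw
    have h2 := congrArg (fun p => ((p.2 : ↥(riemannRochSpace A)) : F)) huw
    simp only [hψ, alpkPencilKer, LinearMap.coe_mk, AddHom.coe_mk, neg_inj] at h2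
    exact Subtype.ext (mul_right_cancel₀ hs0 h2)
  have hrange : LinearMap.range ψ = LinearMap.ker φ := by
    ext p
    rw [LinearMap.mem_range, LinearMap.mem_ker]
    constructor
    · rintro ⟨u, rfl⟩
      apply Subtype.ext
      simp only [hφ, hψ, alpkPencilMap, alpkPencilKer, LinearMap.coe_mk, AddHom.coe_mk,
        ZeroMemClass.coe_zero]
      ring
    · intro hp
      have hp' : p.1.1 * s + p.2.1 * t = 0 := congrArg Subtype.val hp
      obtain ⟨u, hu, h1, h2⟩ := alpk_pencil_ker hx hs0 hst p.1.2 p.2.2 hp'
      refine ⟨⟨u, hu⟩, ?_⟩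
      apply Prod.ext
      · exact Subtype.ext h1.symm
      · exact Subtype.ext h2.symm
  have hdim := φ.finrank_range_add_finrank_ker
  rw [← hrange, LinearMap.finrank_range_of_inj hψinj, Module.finrank_prod] at hdim
  have e1 := alpk_ell_eq hx (A := A - B) (by rw [map_sub]; exact hAB)
  have e2 := alpk_ell_eq hx (A := A) (by omega)
  have e3 := alpk_ell_eq hx (A := A + B) (by rw [map_add]; omega)
  rw [map_sub] at e1
  rw [map_add] at e3
  simp only [ell] at e1 e2 e3
  have hr : Module.finrank K ↥(LinearMap.range φ)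
      = Module.finrank K ↥(riemannRochSpace (A + B)) := by
    zify at hdim ⊢
    omega
  have htop : LinearMap.range φ = ⊤ := Submodule.eq_top_of_finrank_eq hr
  have hmem : (⟨f, hf⟩ : ↥(riemannRochSpace (A + B))) ∈ LinearMap.range φ := by
    rw [htop]; exact Submodule.mem_top
  obtain ⟨p, hp⟩ := hmem
  refine ⟨p.1.1, p.1.2, p.2.1, p.2.2, ?_⟩
  exact (congrArg Subtype.val hp).symm

/-- `L(A) * L(B) ≤ L(A + B)`. -/
theorem alpk_mul_le (A B : Divisor K F) :
    riemannRochSpace A * riemannRochSpace B ≤ riemannRochSpace (A + B) :=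
  Submodule.mul_le.mpr fun _ ha _ hb => mul_mem_riemannRochSpace ha hb

/-- the product theorem in the Castelnuovo range. -/
theorem alpk_mul_eq_of_castelnuovo {A B : Divisor K F}
    (hB : 2 * (genusR K F : ℤ) ≤ Divisor.degree B)
    (hAB : 2 * (genusR K F : ℤ) - 1 ≤ Divisor.degree A - Divisor.degree B) :
    riemannRochSpace A * riemannRochSpace B = riemannRochSpace (A + B) := by
  apply le_antisymm (alpk_mul_le hx A B)
  intro f hf
  obtain ⟨s, hs, t, ht, hs0, hst⟩ := alpk_exists_pencil hx hB
  obtain ⟨a, ha, b, hb, rfl⟩ := alpk_castelnuovo hx hs ht hs0 hst hAB f hf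
  exact add_mem (Submodule.mul_mem_mul ha hs) (Submodule.mul_mem_mul hb ht)

/-- one climbing step: from `B` to `B + v`. -/
theorem alpk_mul_eq_step {A B : Divisor K F} (v : Place K F)
    (hA : 2 * (genusR K F : ℤ) ≤ Divisor.degree A)
    (hB : 2 * (genusR K F : ℤ) - 1 ≤ Divisor.degree B)
    (h : riemannRochSpace A * riemannRochSpace B = riemannRochSpace (A + B)) :
    riemannRochSpace A * riemannRochSpace (B + Finsupp.single v 1)
      = riemannRochSpace (A + (B + Finsupp.single v 1)) := by
  have hdeg : Divisor.degree (B + Finsupp.single v 1) = Divisor.degree B + 1 :=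
    degree_add_single hx B v
  set W : Submodule K F := riemannRochSpace A * riemannRochSpace (B + Finsupp.single v 1) with hW
  have hle : W ≤ riemannRochSpace (A + (B + Finsupp.single v 1)) :=
    alpk_mul_le hx A (B + Finsupp.single v 1)
  have : FiniteDimensional K ↥(riemannRochSpace (A + (B + Finsupp.single v 1))) :=
    finiteDimensional_riemannRochSpace hx _
  refine Submodule.eq_of_le_of_finrank_le hle ?_
  -- `L(A + B) < L(A) * L(B + v)`
  have hmono : riemannRochSpace B ≤ riemannRochSpace (B + Finsupp.single v 1) :=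
    riemannRochSpace_mono (le_add_single B v)
  have hsub : riemannRochSpace (A + B) ≤ W := by
    rw [← h]
    exact mul_le_mul' le_rfl hmono
  obtain ⟨a, ha, ha0, haord⟩ := alpk_exists_exact hx hA v
  obtain ⟨b, hb, hb0, hbord⟩ := alpk_exists_exact hx (A := B + Finsupp.single v 1)
    (by rw [hdeg]; omega) v
  have hab : a * b ∈ W := Submodule.mul_mem_mul ha hb
  have hab' : a * b ∉ riemannRochSpace (A + B) := by
    intro hmem
    rcases (mem_riemannRochSpace_iff.mp hmem) v with h0 | h0
    · exact mul_ne_zero ha0 hb0 h0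
    · rw [v.ord_mul ha0 hb0, haord, hbord, Finsupp.add_apply, Finsupp.add_apply,
        Finsupp.single_eq_same] at h0
      omega
  have hlt : riemannRochSpace (A + B) < W :=
    lt_of_le_of_ne hsub (fun heq => hab' (heq ▸ hab))
  have : FiniteDimensional K ↥W := Submodule.finiteDimensional_of_le hle
  have h1 := Submodule.finrank_lt_finrank_of_lt hlt
  have e1 := alpk_ell_eq hx (A := A + B) (by rw [map_add]; omega)
  have e2 := alpk_ell_eq hx (A := A + (B + Finsupp.single v 1)) (by rw [map_add, hdeg]; omega)
  rw [map_add] at e1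
  rw [map_add, hdeg] at e2
  simp only [ell] at e1 e2
  zify
  zify at h1
  omega

/-- **the product theorem**: `L(A) * L(B) = L(A + B)` for `deg A ≥ 4g`, `deg B ≥ 2g`. -/
theorem alpk_mul_eq {A B : Divisor K F} (hA : 4 * (genusR K F : ℤ) ≤ Divisor.degree A)
    (hB : 2 * (genusR K F : ℤ) ≤ Divisor.degree B) :
    riemannRochSpace A * riemannRochSpace B = riemannRochSpace (A + B) := by
  obtain ⟨v0⟩ := exists_place hx
  obtain ⟨n, hn⟩ : ∃ n : ℕ, (n : ℤ) = Divisor.degree B - 2 * (genusR K F : ℤ) :=
    ⟨(Divisor.degree B - 2 * (genusR K F : ℤ)).toNat, Int.toNat_of_nonneg (by omega)⟩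
  set B₀ : Divisor K F := B - Finsupp.single v0 (n : ℤ) with hB₀
  have hdegB₀ : Divisor.degree B₀ = 2 * (genusR K F : ℤ) := by
    rw [hB₀, map_sub, alpk_degree_single hx]
    omega
  have key : ∀ m : ℕ, riemannRochSpace A * riemannRochSpace (B₀ + Finsupp.single v0 (m : ℤ))
      = riemannRochSpace (A + (B₀ + Finsupp.single v0 (m : ℤ))) := by
    intro m
    induction m with
    | zero =>
      simp only [Nat.cast_zero, Finsupp.single_zero, add_zero]
      exact alpk_mul_eq_of_castelnuovo hx (by omega) (by omega)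
    | succ m ih =>
      have hstep := alpk_mul_eq_step hx (A := A) (B := B₀ + Finsupp.single v0 (m : ℤ)) v0
        (by omega) (by rw [map_add, alpk_degree_single hx]; omega) ih
      have hsum : B₀ + Finsupp.single v0 (m : ℤ) + Finsupp.single v0 1
          = B₀ + Finsupp.single v0 ((m + 1 : ℕ) : ℤ) := by
        rw [add_assoc, ← Finsupp.single_add]
        push_cast
        rfl
      rwa [hsum] at hstep
  have hfin : B₀ + Finsupp.single v0 (n : ℤ) = B := by
    rw [hB₀, sub_add_cancel]
  have := key n
  rwa [hfin] at this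

end Fermat.Agent.Alpha
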