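/-
ALPHA-P3 (helper3), part 4: multiplication by a function on Riemann–Roch spaces, Khuri-Makdisi's
"flip", the moving lemma on one fibre, and uniqueness of effective representatives.

* `alpk_mul_mem_iff`      : `s * a ∈ L(A - div s) ↔ a ∈ L(A)`;
* `alpk_smul_space`       : `s · L(A) = L(A - div s)`;
* `alpk_flip`             : `{t | t · L(A - D) ⊆ s · L(A)} = L(A - D')`, `D' = div s + A - D`;
* `alpk_exists_avoiding`  : `deg A ≥ 2g`, `S` finite ⇒ some `s ∈ L(A)` is exact at every `v ∈ S`;
* `alpk_unique_effective` : `ℓ(E) = 1` ⇒ the effective divisor in the class of `E` is unique.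
-/
import Mathlib
import Fermat.Agent.Lib.Alpha.KM.Product

set_option autoImplicit false
set_option linter.unusedSectionVars false

namespace Fermat.Agent.Alpha

open Fermat.Agent.Curve Fermat.Agent.CurveP AlgebraicCurve PlaceAux RRAux

variable {K F : Type*} [Field K] [Field F] [Algebra K F] [IsAlgClosed K]
  {x : F} (hx : IsFunctionFieldGen K F x)
  [Algebra.IsSeparable (IntermediateField.adjoin K {x}) F]

include hx

/-- `s * a ∈ L(A - div s) ↔ a ∈ L(A)`. -/
theorem alpk_mul_mem_iff (A : Divisor K F) {s : F} (hs : s ≠ 0) (a : F) :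
    s * a ∈ riemannRochSpace (A - divOf hx s) ↔ a ∈ riemannRochSpace A := by
  rw [mem_riemannRochSpace_iff, mem_riemannRochSpace_iff]
  constructor
  · intro h v
    by_cases ha : a = 0
    · exact Or.inl ha
    right
    rcases h v with h0 | h0
    · exact absurd h0 (mul_ne_zero hs ha)
    · rw [v.ord_mul hs ha, Finsupp.sub_apply, divOf_apply hx hs] at h0
      omega
  · intro h v
    by_cases ha : a = 0
    · left; rw [ha, mul_zero]
    right
    rcases h v with h0 | h0
    · exact absurd h0 ha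
    · rw [v.ord_mul hs ha, Finsupp.sub_apply, divOf_apply hx hs]
      omega

/-- `t ∈ L(A - div s)` iff `t = s * a` with `a ∈ L(A)`. -/
theorem alpk_mem_sub_divOf_iff (A : Divisor K F) {s : F} (hs : s ≠ 0) (t : F) :
    t ∈ riemannRochSpace (A - divOf hx s) ↔ ∃ a ∈ riemannRochSpace A, t = s * a := by
  constructor
  · intro h
    refine ⟨s⁻¹ * t, ?_, ?_⟩
    · rw [← alpk_mul_mem_iff hx A hs, ← mul_assoc, mul_inv_cancel₀ hs, one_mul]
      exact h
    · rw [← mul_assoc, mul_inv_cancel₀ hs, one_mul]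
  · rintro ⟨a, ha, rfl⟩
    exact (alpk_mul_mem_iff hx A hs a).mpr ha

/-- `s · L(A) = L(A - div s)`. -/
theorem alpk_smul_space (A : Divisor K F) {s : F} (hs : s ≠ 0) :
    (riemannRochSpace A).map (mulLeftEquiv (K := K) s hs : F →ₗ[K] F) =
      riemannRochSpace (A - divOf hx s) := by
  ext t
  rw [alpk_mem_sub_divOf_iff hx A hs]
  simp only [Submodule.mem_map, LinearEquiv.coe_coe, mulLeftEquiv_apply]
  constructor
  · rintro ⟨a, ha, rfl⟩
    exact ⟨a, ha, rfl⟩
  · rintro ⟨a, ha, rfl⟩
    exact ⟨a, ha, rfl⟩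

/-- **Khuri-Makdisi's flip**.  For `0 ≠ s ∈ L(A - D)` put `D' := div s + A - D` (effective, of
degree `deg A - deg D`).  Then the `t` with `t · L(A - D) ⊆ s · L(A)` are exactly `L(A - D')`
(`deg (A - D) ≥ 2g`). -/
theorem alpk_flip {A D : Divisor K F}
    (hAD : 2 * (genusR K F : ℤ) ≤ Divisor.degree (A - D)) {s : F} (hs : s ≠ 0) (t : F) :
    (∀ u ∈ riemannRochSpace (A - D), ∃ a ∈ riemannRochSpace A, t * u = s * a) ↔
      t ∈ riemannRochSpace (A - (divOf hx s + A - D)) := by
  have h1 : A - (divOf hx s + A - D) = A - divOf hx s - (A - D) := by abel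
  rw [h1, ← alpk_colon hx hAD]
  constructor
  · intro h u hu
    rw [alpk_mem_sub_divOf_iff hx A hs]
    exact h u hu
  · intro h u hu
    rw [← alpk_mem_sub_divOf_iff hx A hs]
    exact h u hu

/-- the flipped divisor is effective and has the complementary degree. -/
theorem alpk_flip_nonneg {A D : Divisor K F} {s : F} (hs : s ≠ 0)
    (hs' : s ∈ riemannRochSpace (A - D)) : 0 ≤ divOf hx s + A - D := by
  have := add_divOf_nonneg hx hs' hs
  have h1 : divOf hx s + A - D = A - D + divOf hx s := by abel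
  rw [h1]
  exact this

theorem alpk_flip_degree (A D : Divisor K F) (s : F) :
    Divisor.degree (divOf hx s + A - D) = Divisor.degree A - Divisor.degree D := by
  rw [map_sub, map_add, degree_divOf, zero_add]

/-- `L(A - D') ≤ L(A)` for `D' ≥ 0`. -/
theorem alpk_space_sub_le (A : Divisor K F) {D : Divisor K F} (hD : 0 ≤ D) :
    riemannRochSpace (A - D) ≤ riemannRochSpace A := by
  apply riemannRochSpace_mono
  intro w
  have := hD w
  rw [Finsupp.zero_apply] at this
  rw [Finsupp.sub_apply]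
  omega

/-- **the moving lemma on one fibre**: `deg A ≥ 2g`, `S` a finite set of places: some nonzero
`s ∈ L(A)` has exact order `-A(v)` at every `v ∈ S`, i.e. the effective divisor `A + div s`
avoids `S`. -/
theorem alpk_exists_avoiding {A : Divisor K F} (hA : 2 * (genusR K F : ℤ) ≤ Divisor.degree A)
    {S : Set (Place K F)} (hS : S.Finite) :
    ∃ s ∈ riemannRochSpace A, s ≠ 0 ∧ ∀ v ∈ S, v.ord s = -A v := by
  obtain ⟨v0⟩ := exists_place hx
  have hfin : (S ∪ {v0}).Finite := hS.union (Set.finite_singleton v0)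
  have : Finite ↥(S ∪ {v0}) := hfin.to_subtype
  have : FiniteDimensional K ↥(riemannRochSpace A) := finiteDimensional_riemannRochSpace hx A
  let p : ↥(S ∪ {v0}) → Submodule K ↥(riemannRochSpace A) := fun v =>
    (riemannRochSpace (A - Finsupp.single v.1 1)).submoduleOf (riemannRochSpace A)
  have hp : ∀ v, p v ≠ ⊤ := by
    intro v htop
    obtain ⟨u, hu, hu0, hord⟩ := alpk_exists_exact hx hA v.1
    have hmem : (⟨u, hu⟩ : ↥(riemannRochSpace A)) ∈ p v := by rw [htop]; exact Submodule.mem_top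
    have hmem' : u ∈ riemannRochSpace (A - Finsupp.single v.1 1) := hmem
    rw [alpk_mem_sub_single_iff hx v.1 hu] at hmem'
    rcases hmem' with h | h
    · exact hu0 h
    · omega
  obtain ⟨t, ht⟩ := Submodule.exists_forall_notMem_of_forall_ne_top p hp
  have key : ∀ v ∈ S ∪ {v0}, (t : F) ≠ 0 ∧ v.ord (t : F) = -A v := by
    intro v hv
    have h1 : (t : F) ∉ riemannRochSpace (A - Finsupp.single v 1) := ht ⟨v, hv⟩
    rw [alpk_mem_sub_single_iff hx v t.2] at h1
    push Not at h1
    obtain ⟨ht0, hlt⟩ := h1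
    refine ⟨ht0, ?_⟩
    rcases (mem_riemannRochSpace_iff.mp t.2) v with h0 | h0
    · exact absurd h0 ht0
    · omega
  refine ⟨t.1, t.2, (key v0 (Set.mem_union_right _ rfl)).1, ?_⟩
  intro v hv
  exact (key v (Set.mem_union_left _ hv)).2

/-- an effective divisor `A + div s` avoiding a finite set, in divisor form. -/
theorem alpk_exists_effective_avoiding {A : Divisor K F}
    (hA : 2 * (genusR K F : ℤ) ≤ Divisor.degree A) {S : Set (Place K F)} (hS : S.Finite) :
    ∃ s : F, s ≠ 0 ∧ 0 ≤ A + divOf hx s ∧ ∀ v ∈ S, (A + divOf hx s) v = 0 := by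
  obtain ⟨s, hs, hs0, hS'⟩ := alpk_exists_avoiding hx hA hS
  refine ⟨s, hs0, add_divOf_nonneg hx hs hs0, ?_⟩
  intro v hv
  rw [Finsupp.add_apply, divOf_apply hx hs0, hS' v hv]
  omega

/-- constants have trivial divisor. -/
theorem alpk_divOf_smul {c : K} (hc : c ≠ 0) {f : F} (hf : f ≠ 0) :
    divOf hx (c • f) = divOf hx f := by
  have hcf : c • f ≠ 0 := smul_ne_zero hc hf
  ext v
  rw [divOf_apply hx hcf, divOf_apply hx hf, Algebra.smul_def,
    v.ord_mul ((map_ne_zero _).mpr hc) hf, PlaceAux.ord_algebraMap v c, zero_add]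

/-- **uniqueness of the effective representative**: if `ℓ(E) = 1` then any two effective divisors
`E + div f₁`, `E + div f₂` coincide. -/
theorem alpk_unique_effective {E : Divisor K F} (hE : ell E = 1) {f₁ f₂ : F} (h₁ : f₁ ≠ 0)
    (h₂ : f₂ ≠ 0) (hf₁ : 0 ≤ E + divOf hx f₁) (hf₂ : 0 ≤ E + divOf hx f₂) :
    E + divOf hx f₁ = E + divOf hx f₂ := by
  have hmem : ∀ {f : F}, f ≠ 0 → 0 ≤ E + divOf hx f → f ∈ riemannRochSpace E := by
    intro f hf h
    rw [mem_riemannRochSpace_iff]
    intro v
    right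
    have := h v
    rw [Finsupp.zero_apply, Finsupp.add_apply, divOf_apply hx hf] at this
    omega
  have m₁ := hmem h₁ hf₁
  have m₂ := hmem h₂ hf₂
  have hfin : Module.finrank K ↥(riemannRochSpace E) = 1 := hE
  have : FiniteDimensional K ↥(riemannRochSpace E) := finiteDimensional_riemannRochSpace hx E
  have h10 : (⟨f₁, m₁⟩ : ↥(riemannRochSpace E)) ≠ 0 := by
    intro h
    exact h₁ (congrArg Subtype.val h)
  obtain ⟨c, hc⟩ := (finrank_eq_one_iff_of_nonzero' (⟨f₁, m₁⟩ : ↥(riemannRochSpace E)) h10).mp hfin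
    ⟨f₂, m₂⟩
  have hc' : c • f₁ = f₂ := congrArg Subtype.val hc
  have hc0 : c ≠ 0 := by
    rintro rfl
    rw [zero_smul] at hc'
    exact h₂ hc'.symm
  rw [← hc', alpk_divOf_smul hx hc0 h₁]

/-- existence of an effective representative from `ℓ(E) ≥ 1`. -/
theorem alpk_exists_effective {E : Divisor K F} (hE : 1 ≤ ell E) :
    ∃ f : F, f ≠ 0 ∧ 0 ≤ E + divOf hx f := by
  have : FiniteDimensional K ↥(riemannRochSpace E) := finiteDimensional_riemannRochSpace hx E
  have hpos : 0 < Module.finrank K ↥(riemannRochSpace E) := hE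
  obtain ⟨f, hf⟩ := Module.finrank_pos_iff_exists_ne_zero.mp hpos
  have hf0 : (f : F) ≠ 0 := fun h => hf (Subtype.ext h)
  exact ⟨f, hf0, add_divOf_nonneg hx f.2 hf0⟩

/-- a divisor of degree `≥ g` has an effective representative. -/
theorem alpk_exists_effective_of_degree {E : Divisor K F}
    (hE : (genusR K F : ℤ) ≤ Divisor.degree E) : ∃ f : F, f ≠ 0 ∧ 0 ≤ E + divOf hx f := by
  apply alpk_exists_effective hx
  have := le_ell hx E
  omega

end Fermat.Agent.Alpha
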