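/-
ALPHA-KM (helper3), part 5: the HOM-KERNEL lemma and `alpk_determined`.

* `alpk_determined` : `L(A - D) = L(A - D')` with both degrees `≥ 2g` forces `D = D'`;
* `alpk_homker`     : a `K`-linear map `φ : L(A) → F` (`deg A ≥ 2g`) with values in `L(B)` which is
  "symmetric", `u' · φ(u) = u · φ(u')`, is multiplication by a unique `h ∈ L(B - A)`;
* `alpkHomKer`, `alpkMulHom`, `alpk_finrank_homker` : the space of such `φ` has dimension `ℓ(B - A)`.
-/
import Mathlib
import Fermat.Agent.Lib.Alpha.KM.Flip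

set_option autoImplicit false
set_option linter.unusedSectionVars false

namespace Fermat.Agent.Alpha

open Fermat.Agent.Curve Fermat.Agent.CurveP AlgebraicCurve PlaceAux RRAux

variable {K F : Type*} [Field K] [Field F] [Algebra K F] [IsAlgClosed K]
  {x : F} (hx : IsFunctionFieldGen K F x)
  [Algebra.IsSeparable (IntermediateField.adjoin K {x}) F]

section Defs

omit [IsAlgClosed K]

/-- the space of "symmetric" `K`-linear maps `L(A) → F` with values in `L(B)`. -/
def alpkHomKer (A B : Divisor K F) : Submodule K (↥(riemannRochSpace A) →ₗ[K] F) where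
  carrier := {φ | (∀ u, φ u ∈ riemannRochSpace B) ∧
    ∀ u u' : ↥(riemannRochSpace A), (u' : F) * φ u = (u : F) * φ u'}
  zero_mem' := by
    refine ⟨fun u => ?_, fun u u' => ?_⟩
    · rw [LinearMap.zero_apply]; exact zero_mem _
    · rw [LinearMap.zero_apply, LinearMap.zero_apply, mul_zero, mul_zero]
  add_mem' := by
    rintro φ ψ ⟨h1, h2⟩ ⟨h3, h4⟩
    refine ⟨fun u => ?_, fun u u' => ?_⟩
    · rw [LinearMap.add_apply]; exact add_mem (h1 u) (h3 u)
    · rw [LinearMap.add_apply, LinearMap.add_apply, mul_add, mul_add, h2 u u', h4 u u']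
  smul_mem' := by
    rintro c φ ⟨h1, h2⟩
    refine ⟨fun u => ?_, fun u u' => ?_⟩
    · rw [LinearMap.smul_apply]; exact Submodule.smul_mem _ c (h1 u)
    · rw [LinearMap.smul_apply, LinearMap.smul_apply, mul_smul_comm, mul_smul_comm, h2 u u']

theorem mem_alpkHomKer {A B : Divisor K F} {φ : ↥(riemannRochSpace A) →ₗ[K] F} :
    φ ∈ alpkHomKer A B ↔ (∀ u, φ u ∈ riemannRochSpace B) ∧
      ∀ u u' : ↥(riemannRochSpace A), (u' : F) * φ u = (u : F) * φ u' := Iff.rfl

/-- multiplication by `h`, as a map `L(A) → F`. -/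
def alpkMulHom (A B : Divisor K F) :
    ↥(riemannRochSpace (B - A)) →ₗ[K] (↥(riemannRochSpace A) →ₗ[K] F) where
  toFun h :=
    { toFun := fun u => (h : F) * (u : F)
      map_add' := fun u u' => by rw [Submodule.coe_add, mul_add]
      map_smul' := fun c u => by
        rw [Submodule.coe_smul, RingHom.id_apply, mul_smul_comm] }
  map_add' h h' := by
    apply LinearMap.ext
    intro u
    simp only [Submodule.coe_add, LinearMap.coe_mk, AddHom.coe_mk, LinearMap.add_apply, add_mul]
  map_smul' c h := by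
    apply LinearMap.ext
    intro u
    simp only [Submodule.coe_smul, LinearMap.coe_mk, AddHom.coe_mk, LinearMap.smul_apply,
      RingHom.id_apply, smul_mul_assoc]

@[simp] theorem alpkMulHom_apply (A B : Divisor K F) (h : ↥(riemannRochSpace (B - A)))
    (u : ↥(riemannRochSpace A)) : alpkMulHom A B h u = (h : F) * (u : F) := rfl

theorem alpkMulHom_mem (A B : Divisor K F) (h : ↥(riemannRochSpace (B - A))) :
    alpkMulHom A B h ∈ alpkHomKer A B := by
  refine ⟨fun u => ?_, fun u u' => ?_⟩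
  · rw [alpkMulHom_apply]
    exact alpk_mul_mem_of_sub h.2 u.2
  · rw [alpkMulHom_apply, alpkMulHom_apply]
    ring

end Defs

include hx

/-- `L(A)` is nonzero for `deg A ≥ 2g`. -/
theorem alpk_exists_ne_zero {A : Divisor K F} (hA : 2 * (genusR K F : ℤ) ≤ Divisor.degree A) :
    ∃ u ∈ riemannRochSpace A, u ≠ 0 := by
  obtain ⟨v⟩ := exists_place hx
  obtain ⟨s, hs, hs0, -⟩ := alpk_exists_exact hx hA v
  exact ⟨s, hs, hs0⟩

/-- **`L(A - D)` determines `D`** (both of degree `≥ 2g`). -/
theorem alpk_determined {A D D' : Divisor K F}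
    (hD : 2 * (genusR K F : ℤ) ≤ Divisor.degree (A - D))
    (hD' : 2 * (genusR K F : ℤ) ≤ Divisor.degree (A - D'))
    (h : riemannRochSpace (A - D) = riemannRochSpace (A - D')) : D = D' := by
  have key : ∀ {E E' : Divisor K F}, 2 * (genusR K F : ℤ) ≤ Divisor.degree (A - E) →
      riemannRochSpace (A - E) ≤ riemannRochSpace (A - E') → ∀ v, E' v ≤ E v := by
    intro E E' hE hle v
    obtain ⟨s, hs, hs0, hord⟩ := alpk_exists_exact hx hE v
    rcases (mem_riemannRochSpace_iff.mp (hle hs)) v with h0 | h0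
    · exact absurd h0 hs0
    · rw [hord, Finsupp.sub_apply, Finsupp.sub_apply] at h0
      omega
  ext v
  exact le_antisymm (key hD' h.ge v) (key hD h.le v)

/-- **the HOM-KERNEL lemma**: for `deg A ≥ 2g`, a linear map `φ : L(A) → F` has values in `L(B)` and
is symmetric (`u' · φ u = u · φ u'`) iff it is multiplication by some `h ∈ L(B - A)`. -/
theorem alpk_homker {A B : Divisor K F} (hA : 2 * (genusR K F : ℤ) ≤ Divisor.degree A)
    (φ : ↥(riemannRochSpace A) →ₗ[K] F) :
    ((∀ u, φ u ∈ riemannRochSpace B) ∧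
      ∀ u u' : ↥(riemannRochSpace A), (u' : F) * φ u = (u : F) * φ u') ↔
      ∃ h ∈ riemannRochSpace (B - A), ∀ u, φ u = h * (u : F) := by
  constructor
  · rintro ⟨h1, h2⟩
    obtain ⟨u0, hu0, hu00⟩ := alpk_exists_ne_zero hx hA
    have hφ : ∀ u : ↥(riemannRochSpace A), φ u = φ ⟨u0, hu0⟩ / u0 * (u : F) := by
      intro u
      have := h2 u ⟨u0, hu0⟩
      change u0 * φ u = (u : F) * φ ⟨u0, hu0⟩ at this
      field_simp
      rw [mul_comm (φ u) u0, this, mul_comm]
    refine ⟨φ ⟨u0, hu0⟩ / u0, ?_, hφ⟩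
    rw [← alpk_colon hx hA]
    intro t ht
    have := h1 ⟨t, ht⟩
    rwa [hφ ⟨t, ht⟩] at this
  · rintro ⟨h, hh, hφ⟩
    refine ⟨fun u => ?_, fun u u' => ?_⟩
    · rw [hφ u]
      exact alpk_mul_mem_of_sub hh u.2
    · rw [hφ u, hφ u']
      ring

/-- uniqueness of the multiplier. -/
theorem alpk_homker_unique {A : Divisor K F} (hA : 2 * (genusR K F : ℤ) ≤ Divisor.degree A)
    {h h' : F} (hh : ∀ u ∈ riemannRochSpace A, h * u = h' * u) : h = h' := by
  obtain ⟨u0, hu0, hu00⟩ := alpk_exists_ne_zero hx hA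
  exact mul_right_cancel₀ hu00 (hh u0 hu0)

theorem alpkMulHom_injective {A : Divisor K F} (hA : 2 * (genusR K F : ℤ) ≤ Divisor.degree A)
    (B : Divisor K F) : Function.Injective (alpkMulHom A B) := by
  intro h h' hhh
  apply Subtype.ext
  apply alpk_homker_unique hx hA
  intro u hu
  have := LinearMap.congr_fun hhh ⟨u, hu⟩
  simpa using this

theorem alpk_range_mulHom {A : Divisor K F} (hA : 2 * (genusR K F : ℤ) ≤ Divisor.degree A)
    (B : Divisor K F) : LinearMap.range (alpkMulHom A B) = alpkHomKer A B := by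
  apply le_antisymm
  · rintro _ ⟨h, rfl⟩
    exact alpkMulHom_mem A B h
  · intro φ hφ
    obtain ⟨h, hh, hφh⟩ := (alpk_homker hx hA φ).mp hφ
    refine ⟨⟨h, hh⟩, ?_⟩
    apply LinearMap.ext
    intro u
    rw [alpkMulHom_apply, hφh u]

/-- the space of symmetric maps is `≃ L(B - A)`. -/
noncomputable def alpkHomKerEquiv {A : Divisor K F}
    (hA : 2 * (genusR K F : ℤ) ≤ Divisor.degree A) (B : Divisor K F) :
    ↥(riemannRochSpace (B - A)) ≃ₗ[K] ↥(alpkHomKer A B) :=
  (LinearEquiv.ofInjective (alpkMulHom A B) (alpkMulHom_injective hx hA B)).trans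
    (LinearEquiv.ofEq _ _ (alpk_range_mulHom hx hA B))

theorem alpkHomKerEquiv_apply {A : Divisor K F}
    (hA : 2 * (genusR K F : ℤ) ≤ Divisor.degree A) (B : Divisor K F)
    (h : ↥(riemannRochSpace (B - A))) (u : ↥(riemannRochSpace A)) :
    (alpkHomKerEquiv hx hA B h : ↥(riemannRochSpace A) →ₗ[K] F) u = (h : F) * (u : F) := rfl

/-- **dimension of the Hom-kernel**: `ℓ(B - A)`. -/
theorem alpk_finrank_homker {A : Divisor K F}
    (hA : 2 * (genusR K F : ℤ) ≤ Divisor.degree A) (B : Divisor K F) :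
    Module.finrank K ↥(alpkHomKer A B) = ell (B - A) :=
  (alpkHomKerEquiv hx hA B).finrank_eq.symm

/-- a nonzero element of the Hom-kernel is multiplication by a nonzero `h`, in particular it is
injective. -/
theorem alpk_homker_injective {A B : Divisor K F}
    (hA : 2 * (genusR K F : ℤ) ≤ Divisor.degree A) {φ : ↥(riemannRochSpace A) →ₗ[K] F}
    (hφ : φ ∈ alpkHomKer A B) (hφ0 : φ ≠ 0) : Function.Injective φ := by
  obtain ⟨h, -, hφh⟩ := (alpk_homker hx hA φ).mp hφ
  have hh0 : h ≠ 0 := by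
    rintro rfl
    apply hφ0
    apply LinearMap.ext
    intro u
    rw [hφh u, zero_mul, LinearMap.zero_apply]
  intro u u' huu
  rw [hφh u, hφh u'] at huu
  exact Subtype.ext (mul_left_cancel₀ hh0 huu)

/-- the image of multiplication by `h ≠ 0` on `L(A)` is `L(A - div h)`. -/
theorem alpk_range_mul {A : Divisor K F} {h : F} (hh : h ≠ 0) (t : F) :
    (∃ u ∈ riemannRochSpace A, t = h * u) ↔ t ∈ riemannRochSpace (A - divOf hx h) :=
  (alpk_mem_sub_divOf_iff hx A hh t).symm

/-! ### the same with codomain `L(B)` -/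

section Cod

omit hx [IsAlgClosed K]

/-- symmetric `K`-linear maps `L(A) → L(B)`. -/
def alpkHomKerC (A B : Divisor K F) :
    Submodule K (↥(riemannRochSpace A) →ₗ[K] ↥(riemannRochSpace B)) where
  carrier := {φ | ∀ u u' : ↥(riemannRochSpace A), (u' : F) * (φ u : F) = (u : F) * (φ u' : F)}
  zero_mem' := by
    intro u u'
    simp
  add_mem' := by
    intro φ ψ h2 h4 u u'
    rw [LinearMap.add_apply, LinearMap.add_apply, Submodule.coe_add, Submodule.coe_add, mul_add,
      mul_add, h2 u u', h4 u u']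
  smul_mem' := by
    intro c φ h2 u u'
    rw [LinearMap.smul_apply, LinearMap.smul_apply, Submodule.coe_smul, Submodule.coe_smul,
      mul_smul_comm, mul_smul_comm, h2 u u']

theorem mem_alpkHomKerC {A B : Divisor K F}
    {φ : ↥(riemannRochSpace A) →ₗ[K] ↥(riemannRochSpace B)} :
    φ ∈ alpkHomKerC A B ↔
      ∀ u u' : ↥(riemannRochSpace A), (u' : F) * (φ u : F) = (u : F) * (φ u' : F) := Iff.rfl

/-- multiplication by `h ∈ L(B - A)`, as a map `L(A) → L(B)`. -/
def alpkMulHomC (A B : Divisor K F) :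
    ↥(riemannRochSpace (B - A)) →ₗ[K] (↥(riemannRochSpace A) →ₗ[K] ↥(riemannRochSpace B)) where
  toFun h :=
    { toFun := fun u => ⟨(h : F) * (u : F), alpk_mul_mem_of_sub h.2 u.2⟩
      map_add' := fun u u' => by
        apply Subtype.ext
        simp only [Submodule.coe_add, mul_add]
      map_smul' := fun c u => by
        apply Subtype.ext
        simp only [Submodule.coe_smul, RingHom.id_apply, mul_smul_comm] }
  map_add' h h' := by
    apply LinearMap.ext
    intro u
    apply Subtype.ext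
    simp only [Submodule.coe_add, LinearMap.coe_mk, AddHom.coe_mk, LinearMap.add_apply, add_mul]
  map_smul' c h := by
    apply LinearMap.ext
    intro u
    apply Subtype.ext
    simp only [Submodule.coe_smul, LinearMap.coe_mk, AddHom.coe_mk, LinearMap.smul_apply,
      RingHom.id_apply, smul_mul_assoc]

@[simp] theorem alpkMulHomC_apply (A B : Divisor K F) (h : ↥(riemannRochSpace (B - A)))
    (u : ↥(riemannRochSpace A)) : ((alpkMulHomC A B h u : ↥(riemannRochSpace B)) : F) =
      (h : F) * (u : F) := rfl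

theorem alpkMulHomC_mem (A B : Divisor K F) (h : ↥(riemannRochSpace (B - A))) :
    alpkMulHomC A B h ∈ alpkHomKerC A B := by
  intro u u'
  rw [alpkMulHomC_apply, alpkMulHomC_apply]
  ring

end Cod

/-- **HOM-KERNEL lemma**, codomain `L(B)`. -/
theorem alpk_homkerC {A B : Divisor K F} (hA : 2 * (genusR K F : ℤ) ≤ Divisor.degree A)
    (φ : ↥(riemannRochSpace A) →ₗ[K] ↥(riemannRochSpace B)) :
    (∀ u u' : ↥(riemannRochSpace A), (u' : F) * (φ u : F) = (u : F) * (φ u' : F)) ↔
      ∃ h ∈ riemannRochSpace (B - A), ∀ u, (φ u : F) = h * (u : F) := by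
  have := alpk_homker hx (B := B) hA ((riemannRochSpace B).subtype.comp φ)
  simp only [LinearMap.comp_apply, Submodule.subtype_apply, SetLike.coe_mem, implies_true,
    true_and] at this
  exact this

theorem alpkMulHomC_injective {A : Divisor K F} (hA : 2 * (genusR K F : ℤ) ≤ Divisor.degree A)
    (B : Divisor K F) : Function.Injective (alpkMulHomC A B) := by
  intro h h' hhh
  apply Subtype.ext
  apply alpk_homker_unique hx hA
  intro u hu
  have := congrArg Subtype.val (LinearMap.congr_fun hhh ⟨u, hu⟩)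
  simpa using this

theorem alpk_range_mulHomC {A : Divisor K F} (hA : 2 * (genusR K F : ℤ) ≤ Divisor.degree A)
    (B : Divisor K F) : LinearMap.range (alpkMulHomC A B) = alpkHomKerC A B := by
  apply le_antisymm
  · rintro _ ⟨h, rfl⟩
    exact alpkMulHomC_mem A B h
  · intro φ hφ
    obtain ⟨h, hh, hφh⟩ := (alpk_homkerC hx hA φ).mp hφ
    refine ⟨⟨h, hh⟩, ?_⟩
    apply LinearMap.ext
    intro u
    apply Subtype.ext
    rw [alpkMulHomC_apply, hφh u]

/-- the space of symmetric maps `L(A) → L(B)` is `≃ L(B - A)`. -/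
noncomputable def alpkHomKerCEquiv {A : Divisor K F}
    (hA : 2 * (genusR K F : ℤ) ≤ Divisor.degree A) (B : Divisor K F) :
    ↥(riemannRochSpace (B - A)) ≃ₗ[K] ↥(alpkHomKerC A B) :=
  (LinearEquiv.ofInjective (alpkMulHomC A B) (alpkMulHomC_injective hx hA B)).trans
    (LinearEquiv.ofEq _ _ (alpk_range_mulHomC hx hA B))

/-- **dimension of the Hom-kernel** (codomain `L(B)`): `ℓ(B - A)`. -/
theorem alpk_finrank_homkerC {A : Divisor K F}
    (hA : 2 * (genusR K F : ℤ) ≤ Divisor.degree A) (B : Divisor K F) :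
    Module.finrank K ↥(alpkHomKerC A B) = ell (B - A) :=
  (alpkHomKerCEquiv hx hA B).finrank_eq.symm

end Fermat.Agent.Alpha
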