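/-
ALPHA-KM (helper3), part 6: effective representatives of divisor classes relative to a base
divisor `E0`, and the fibrewise computation of the KEY chain
(product → Hom-kernel → image → colon).

* `AlpkRep E0 c D` : `D ≥ 0` and `D - E0` is a degree-zero divisor of class `c ∈ Pic⁰`;
* `alpk_rep_exists`, `alpk_rep_unique`, `alpk_rep_add`;
* `alpk_chain` : for `φ ≠ 0` in the Hom-kernel `L(2N - D₁ - D₂) → L(2N - E0)` with
  `ℓ(D₁ + D₂ - E0) = 1`: `φ` is multiplication by `h ≠ 0`, `D₃ := D₁ + D₂ - E0 + div h ≥ 0`,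
  the image of `φ` is `L(2N - E0 - D₃)` and `{u | u · L(N - E0) ⊆ im φ} = L(N - D₃)`.
-/
import Mathlib
import Fermat.Agent.Lib.Alpha.KM.HomKer

set_option autoImplicit false
set_option linter.unusedSectionVars false

namespace Fermat.Agent.Alpha

open Fermat.Agent.Curve Fermat.Agent.CurveP AlgebraicCurve PlaceAux RRAux

variable {K F : Type*} [Field K] [Field F] [Algebra K F] [IsAlgClosed K]
  {x : F} (hx : IsFunctionFieldGen K F x)
  [Algebra.IsSeparable (IntermediateField.adjoin K {x}) F]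

include hx

/-- `div f` is principal. -/
theorem alpk_divOf_mem_principal {f : F} (hf : f ≠ 0) :
    divOf hx f ∈ Divisor.principal (K := K) (F := F) :=
  ⟨f, hf, fun v => divOf_apply hx hf v⟩

/-- a principal divisor is `div f`. -/
theorem alpk_exists_divOf_of_mem_principal {D : Divisor K F}
    (hD : D ∈ Divisor.principal (K := K) (F := F)) : ∃ f : F, f ≠ 0 ∧ D = divOf hx f := by
  obtain ⟨f, hf, hDf⟩ := hD
  refine ⟨f, hf, ?_⟩
  ext v
  rw [hDf v, divOf_apply hx hf]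

theorem alpk_divOf_mul {f g : F} (hf : f ≠ 0) (hg : g ≠ 0) :
    divOf hx (f * g) = divOf hx f + divOf hx g := by
  ext v
  rw [Finsupp.add_apply, divOf_apply hx (mul_ne_zero hf hg), divOf_apply hx hf,
    divOf_apply hx hg, v.ord_mul hf hg]

theorem alpk_divOf_inv {f : F} (hf : f ≠ 0) : divOf hx f⁻¹ = -divOf hx f := by
  ext v
  rw [Finsupp.neg_apply, divOf_apply hx (inv_ne_zero hf), divOf_apply hx hf, v.ord_inv]

theorem alpk_divOf_one : divOf hx (1 : F) = 0 := by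
  ext v
  rw [divOf_apply hx one_ne_zero, v.ord_one, Finsupp.zero_apply]

/-- equality of classes in `Pic⁰`. -/
theorem alpk_mk_eq_mk_iff (X Y : Divisor.degZero (K := K) (F := F)) :
    Pic0.mk X = Pic0.mk Y ↔ ∃ f : F, f ≠ 0 ∧ (Y : Divisor K F) = (X : Divisor K F) + divOf hx f := by
  rw [Pic0.mk, Pic0.mk, QuotientAddGroup.eq, AddSubgroup.mem_addSubgroupOf]
  constructor
  · intro h
    obtain ⟨f, hf, hD⟩ := alpk_exists_divOf_of_mem_principal hx h
    refine ⟨f, hf, ?_⟩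
    rw [← hD]
    simp only [AddSubgroup.coe_add, NegMemClass.coe_neg]
    abel
  · rintro ⟨f, hf, hY⟩
    have : ((-X + Y : Divisor.degZero (K := K) (F := F)) : Divisor K F) = divOf hx f := by
      simp only [AddSubgroup.coe_add, NegMemClass.coe_neg, hY]
      abel
    rw [this]
    exact alpk_divOf_mem_principal hx hf

/-- `D` is an effective divisor with `[D - E0] = c` in `Pic⁰`. -/
def AlpkRep (E0 : Divisor K F) (c : Pic0 K F) (D : Divisor K F) : Prop :=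
  0 ≤ D ∧ ∃ h : D - E0 ∈ Divisor.degZero (K := K) (F := F), Pic0.mk ⟨D - E0, h⟩ = c

omit hx [IsAlgClosed K] [Algebra.IsSeparable (IntermediateField.adjoin K {x}) F] in
theorem AlpkRep.nonneg {E0 : Divisor K F} {c : Pic0 K F} {D : Divisor K F}
    (h : AlpkRep E0 c D) : 0 ≤ D := h.1

omit hx [IsAlgClosed K] [Algebra.IsSeparable (IntermediateField.adjoin K {x}) F] in
theorem AlpkRep.degree_eq {E0 : Divisor K F} {c : Pic0 K F} {D : Divisor K F}
    (h : AlpkRep E0 c D) : Divisor.degree D = Divisor.degree E0 := by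
  obtain ⟨-, h0, -⟩ := h
  rw [Divisor.mem_degZero, map_sub] at h0
  omega

/-- two representatives of the same class differ by a principal divisor. -/
theorem AlpkRep.exists_divOf {E0 : Divisor K F} {c : Pic0 K F} {D D' : Divisor K F}
    (h : AlpkRep E0 c D) (h' : AlpkRep E0 c D') :
    ∃ f : F, f ≠ 0 ∧ D' = D + divOf hx f := by
  obtain ⟨-, h0, hc⟩ := h
  obtain ⟨-, h0', hc'⟩ := h'
  obtain ⟨f, hf, hY⟩ := (alpk_mk_eq_mk_iff hx ⟨D - E0, h0⟩ ⟨D' - E0, h0'⟩).mp (hc.trans hc'.symm)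
  refine ⟨f, hf, ?_⟩
  change D' - E0 = D - E0 + divOf hx f at hY
  have : D' = D' - E0 + E0 := by abel
  rw [this, hY]
  abel

/-- **existence** of an effective representative (`deg E0 ≥ g`). -/
theorem alpk_rep_exists {E0 : Divisor K F} (hE0 : (genusR K F : ℤ) ≤ Divisor.degree E0)
    (c : Pic0 K F) : ∃ D, AlpkRep E0 c D := by
  obtain ⟨X, rfl⟩ := Pic0.mk_surjective c
  have hX : Divisor.degree (X : Divisor K F) = 0 := X.2
  obtain ⟨f, hf, hnn⟩ := alpk_exists_effective_of_degree hx (E := (X : Divisor K F) + E0)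
    (by rw [map_add, hX]; omega)
  have hsub : (X : Divisor K F) + E0 + divOf hx f - E0 = (X : Divisor K F) + divOf hx f := by abel
  have hmem : (X : Divisor K F) + E0 + divOf hx f - E0 ∈ Divisor.degZero (K := K) (F := F) := by
    rw [hsub, Divisor.mem_degZero, map_add, hX, degree_divOf, add_zero]
  refine ⟨(X : Divisor K F) + E0 + divOf hx f, hnn, hmem, ?_⟩
  symm
  rw [alpk_mk_eq_mk_iff hx]
  exact ⟨f, hf, hsub⟩

/-- `ℓ` of a representative depends only on the class. -/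
theorem AlpkRep.ell_eq {E0 : Divisor K F} {c : Pic0 K F} {D D' : Divisor K F}
    (h : AlpkRep E0 c D) (h' : AlpkRep E0 c D') : ell D' = ell D := by
  obtain ⟨f, hf, rfl⟩ := h.exists_divOf hx h'
  exact ell_add_divOf hx D hf

/-- **uniqueness** of the effective representative when `ℓ = 1`. -/
theorem alpk_rep_unique {E0 : Divisor K F} {c : Pic0 K F} {D D' : Divisor K F}
    (h : AlpkRep E0 c D) (h' : AlpkRep E0 c D') (hell : ell D = 1) : D = D' := by
  obtain ⟨f, hf, rfl⟩ := h.exists_divOf hx h'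
  have h1 : 0 ≤ D + divOf hx (1 : F) := by
    rw [alpk_divOf_one, add_zero]; exact h.1
  have := alpk_unique_effective hx hell one_ne_zero hf h1 h'.1
  rw [alpk_divOf_one, add_zero] at this
  exact this

/-- **addition of representatives**: `D₁ + D₂ - E0 + div h` represents `c₁ + c₂`. -/
theorem alpk_rep_add {E0 : Divisor K F} {c₁ c₂ : Pic0 K F} {D₁ D₂ : Divisor K F}
    (h₁ : AlpkRep E0 c₁ D₁) (h₂ : AlpkRep E0 c₂ D₂) {h : F} (hh : h ≠ 0)
    (hnn : 0 ≤ D₁ + D₂ - E0 + divOf hx h) :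
    AlpkRep E0 (c₁ + c₂) (D₁ + D₂ - E0 + divOf hx h) := by
  obtain ⟨-, h0₁, hc₁⟩ := h₁
  obtain ⟨-, h0₂, hc₂⟩ := h₂
  have hsub : D₁ + D₂ - E0 + divOf hx h - E0 = (D₁ - E0) + (D₂ - E0) + divOf hx h := by abel
  have hmem : D₁ + D₂ - E0 + divOf hx h - E0 ∈ Divisor.degZero (K := K) (F := F) := by
    rw [hsub, Divisor.mem_degZero, map_add, map_add, degree_divOf, add_zero]
    rw [Divisor.mem_degZero] at h0₁ h0₂
    rw [h0₁, h0₂, add_zero]
  refine ⟨hnn, hmem, ?_⟩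
  rw [← hc₁, ← hc₂, ← Pic0.mk_add]
  symm
  rw [alpk_mk_eq_mk_iff hx]
  exact ⟨h, hh, hsub⟩

/-- `ℓ(D₁ + D₂ - E0)` is `ℓ` of any representative of `c₁ + c₂`. -/
theorem alpk_rep_ell_add {E0 : Divisor K F} {c₁ c₂ : Pic0 K F} {D₁ D₂ D₃ : Divisor K F}
    (h₁ : AlpkRep E0 c₁ D₁) (h₂ : AlpkRep E0 c₂ D₂) (h₃ : AlpkRep E0 (c₁ + c₂) D₃) :
    ell (D₁ + D₂ - E0) = ell D₃ := by
  obtain ⟨-, h0₁, hc₁⟩ := h₁
  obtain ⟨-, h0₂, hc₂⟩ := h₂
  obtain ⟨-, h0₃, hc₃⟩ := h₃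
  have hmem : (D₁ - E0) + (D₂ - E0) ∈ Divisor.degZero (K := K) (F := F) := add_mem h0₁ h0₂
  have hc : Pic0.mk ⟨(D₁ - E0) + (D₂ - E0), hmem⟩ = c₁ + c₂ := by
    rw [← hc₁, ← hc₂, ← Pic0.mk_add]
    rfl
  obtain ⟨f, hf, hY⟩ := (alpk_mk_eq_mk_iff hx ⟨(D₁ - E0) + (D₂ - E0), hmem⟩ ⟨D₃ - E0, h0₃⟩).mp
    (hc.trans hc₃.symm)
  change D₃ - E0 = (D₁ - E0) + (D₂ - E0) + divOf hx f at hY
  have h3 : D₃ = D₁ + D₂ - E0 + divOf hx f := by
    have : D₃ = D₃ - E0 + E0 := by abel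
    rw [this, hY]
    abel
  rw [h3, ell_add_divOf hx _ hf]

/-- **the KEY chain on one fibre.**  `N` arbitrary ("`n∞`"), `A := 2N - D₁ - D₂` of degree `≥ 2g`,
`N - E0` of degree `≥ 2g`, `ℓ(D₁ + D₂ - E0) = 1`.  A nonzero symmetric map
`φ : L(2N - D₁ - D₂) → L(2N - E0)` is multiplication by some `h ≠ 0`;
`D₃ := D₁ + D₂ - E0 + div h` is effective; `im φ = L(2N - E0 - D₃)`; and
`{u | u · L(N - E0) ⊆ im φ} = L(N - D₃)`. -/
theorem alpk_chain {N E0 D₁ D₂ : Divisor K F}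
    (hA : 2 * (genusR K F : ℤ) ≤ Divisor.degree (N + N - D₁ - D₂))
    (h0 : 2 * (genusR K F : ℤ) ≤ Divisor.degree (N - E0))
    (φ : ↥(riemannRochSpace (N + N - D₁ - D₂)) →ₗ[K] ↥(riemannRochSpace (N + N - E0)))
    (hφ : φ ∈ alpkHomKerC (N + N - D₁ - D₂) (N + N - E0)) (hφ0 : φ ≠ 0) :
    ∃ h : F, h ≠ 0 ∧ h ∈ riemannRochSpace (D₁ + D₂ - E0) ∧ (∀ u, (φ u : F) = h * (u : F)) ∧
      0 ≤ D₁ + D₂ - E0 + divOf hx h ∧
      (∀ t : F, (∃ u, (φ u : F) = t) ↔
        t ∈ riemannRochSpace (N + N - E0 - (D₁ + D₂ - E0 + divOf hx h))) ∧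
      ∀ u : F, (∀ t ∈ riemannRochSpace (N - E0), ∃ w, (φ w : F) = u * t) ↔
        u ∈ riemannRochSpace (N - (D₁ + D₂ - E0 + divOf hx h)) := by
  obtain ⟨h, hh, hφh⟩ := (alpk_homkerC hx hA φ).mp hφ
  have hBA : N + N - E0 - (N + N - D₁ - D₂) = D₁ + D₂ - E0 := by abel
  rw [hBA] at hh
  have hh0 : h ≠ 0 := by
    rintro rfl
    apply hφ0
    apply LinearMap.ext
    intro u
    apply Subtype.ext
    rw [hφh u, zero_mul, LinearMap.zero_apply, Submodule.coe_zero]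
  have hnn : 0 ≤ D₁ + D₂ - E0 + divOf hx h := add_divOf_nonneg hx hh hh0
  have himg : ∀ t : F, (∃ u, (φ u : F) = t) ↔
      t ∈ riemannRochSpace (N + N - E0 - (D₁ + D₂ - E0 + divOf hx h)) := by
    intro t
    have hdiv : N + N - E0 - (D₁ + D₂ - E0 + divOf hx h) = N + N - D₁ - D₂ - divOf hx h := by abel
    rw [hdiv, ← alpk_range_mul hx hh0]
    constructor
    · rintro ⟨u, rfl⟩
      exact ⟨u, u.2, hφh u⟩
    · rintro ⟨u, hu, rfl⟩
      exact ⟨⟨u, hu⟩, hφh ⟨u, hu⟩⟩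
  refine ⟨h, hh0, hh, hφh, hnn, himg, ?_⟩
  intro u
  have hcol := alpk_colon hx (B := N - E0)
    (C := N + N - E0 - (D₁ + D₂ - E0 + divOf hx h)) h0 u
  have hCB : N + N - E0 - (D₁ + D₂ - E0 + divOf hx h) - (N - E0) =
      N - (D₁ + D₂ - E0 + divOf hx h) := by abel
  rw [hCB] at hcol
  rw [← hcol]
  constructor
  · intro hu t ht
    exact (himg _).mp (hu t ht)
  · intro hu t ht
    exact (himg _).mpr (hu t ht)

end Fermat.Agent.Alpha
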